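import Fermat.Agent.S15.M1.PL.Place
import Fermat.Agent.S15.M1.Contracts
import Fermat.Agent.S36R.KS.JIdentity
import Fermat.Agent.S28.BMono

/-!
# S15 / M1 / PL : corollaries of `exists_place_of_tau`

* `exists_isPt_of_tau`  : the point `(j, j_N) = (j(τ), j(Nτ))`;
* `exists_isPtU_of_tau` : the point `(j, j_N, u) = (j(τ), j(Nτ), Δ(τ)/Δ(Nτ))` (one place for the three functions);
* `placeOut_of`         : the contract `M1.PlaceOut` for `1 < N` (for `N = 1` the contract is false: `uF 1 = 1`).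
-/

set_option autoImplicit false

noncomputable section

namespace Fermat.Agent.S15.M1.PL

open UpperHalfPlane AlgebraicCurve ModularCurve CongruenceSubgroup
open Fermat.Agent.S24 Fermat.Agent.S24.PointExp Fermat.Agent.S24.FNAdjoin Fermat.Agent.S24.EmbedFN
  Fermat.Agent.S24.JLocal Fermat.Agent.S24.EmbedPoint Fermat.Agent.GAL.Tors.Dict
open scoped Manifold MatrixGroups

local notation "𝕢" => Function.Periodic.qParam
local notation "Δ" => ModularForm.discriminant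

/-! ### the series `Δ⁻¹` -/

theorem isConv_DlLinv : IsConv (S28.DlLinv ℂ) := by
  have hd : DifferentiableOn ℂ (fun q => (eulerFn q ^ 24)⁻¹) (Metric.ball 0 1) := by
    refine DifferentiableOn.inv (differentiableOn_eulerFn.pow 24) ?_
    intro q hq
    exact pow_ne_zero _ (eulerFn_ne_zero (by simpa using hq))
  have h1 : taylor0 (eulerFn ^ 24) * taylor0 (fun q => (eulerFn q ^ 24)⁻¹) = 1 := by
    rw [← taylor0_mul (analyticAt_eulerFn.pow 24)
      (hd.analyticAt (Metric.ball_mem_nhds 0 one_pos)), ← taylor0_one]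
    apply taylor0_congr
    filter_upwards [Metric.ball_mem_nhds (0 : ℂ) one_pos] with q hq
    have := pow_ne_zero 24 (eulerFn_ne_zero (q := q) (by simpa using hq))
    simp only [Pi.mul_apply, Pi.pow_apply, Pi.one_apply]
    exact mul_inv_cancel₀ this
  have h2 : S28.DlL ℂ * (HahnSeries.single (-1 : ℤ) 1 *
      HahnSeries.ofPowerSeries ℤ ℂ (taylor0 (fun q => (eulerFn q ^ 24)⁻¹))) = 1 := by
    rw [S36R.KS.JIdentity_DlL_eq, mul_mul_mul_comm, HahnSeries.single_mul_single, ← map_mul, h1,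
      map_one]
    simp
  have h3 : S28.DlLinv ℂ = HahnSeries.single (-1 : ℤ) 1 *
      HahnSeries.ofPowerSeries ℤ ℂ (taylor0 (fun q => (eulerFn q ^ 24)⁻¹)) := by
    have h4 := S28.DlL_mul_DlLinv (Λ := ℂ)
    have hne : S28.DlL ℂ ≠ 0 := by
      intro h0
      rw [h0, zero_mul] at h4
      exact zero_ne_one h4
    exact mul_left_cancel₀ hne (h4.trans h2.symm)
  rw [h3]
  exact (isConv_single _ _).mul (isConv_taylor0 hd)

theorem evalAt_DlLinv (τ : ℍ) : evalAt (𝕢 1 τ) (S28.DlLinv ℂ) = (Δ τ)⁻¹ := by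
  have h := evalAt_mul S36R.KS.isConv_DlL isConv_DlLinv (qParam_ne_zero' τ) (norm_qParam_lt_one' τ)
  rw [S28.DlL_mul_DlLinv, evalAt_one, S36R.KS.evalAt_DlL] at h
  exact eq_inv_of_mul_eq_one_right h.symm

theorem qParam_pow (N : ℕ) [NeZero N] (τ : ℍ) : 𝕢 1 (τ : ℂ) ^ N = 𝕢 1 ((mulH N τ : ℍ) : ℂ) := by
  rw [coe_mulH]
  unfold Function.Periodic.qParam
  rw [← Complex.exp_nat_mul]
  congr 1
  ring

theorem coeffMap_uSer (N : ℕ) [NeZero N] :
    coeffMap iota (uSer N) = S28.DlL ℂ * qExpand ℂ N (S28.DlLinv ℂ) := by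
  rw [uSer, map_mul, coeffMap_qExpand, S28.coeffMap_DlL, S28.coeffMap_DlLinv]

theorem isConv_uSer (N : ℕ) [NeZero N] : IsConv (coeffMap iota (uSer N)) := by
  rw [coeffMap_uSer]
  exact S36R.KS.isConv_DlL.mul (isConv_DlLinv.qExpand N)

theorem evalAt_uSer (N : ℕ) [NeZero N] (τ : ℍ) :
    evalAt (𝕢 1 τ) (coeffMap iota (uSer N)) = Δ τ / Δ (mulH N τ) := by
  rw [coeffMap_uSer, evalAt_mul S36R.KS.isConv_DlL (isConv_DlLinv.qExpand N) (qParam_ne_zero' τ)
    (norm_qParam_lt_one' τ), S36R.KS.evalAt_DlL, evalAt_qExpand, qParam_pow, evalAt_DlLinv,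
    div_eq_mul_inv]

/-! ### non constancy -/

theorem coeff_algebraMap_of_ne (N : ℕ) (c : Kbar) {n : ℤ} (hn : n ≠ 0) :
    ((algebraMap Kbar (FN N) c : FN N) : LaurentSeries Kbar).coeff n = 0 := by
  show (algebraMap Kbar (LaurentSeries Kbar) c).coeff n = 0
  rw [algebraMap_laurentSeries_eq_single, HahnSeries.coeff_single_of_ne hn]

theorem jd_ne_algebraMap (N : ℕ) [NeZero N] (c : Kbar) :
    FNAdjoin.jd N N dvd_rfl ≠ algebraMap Kbar (FN N) c := by
  intro h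
  have hN : (N : ℤ) ≠ 0 := by exact_mod_cast NeZero.ne N
  have h1 := congrArg (fun z : FN N => (z : LaurentSeries Kbar).coeff ((N : ℤ) * (-1))) h
  rw [coeff_algebraMap_of_ne N c (mul_ne_zero hN (by norm_num)), FNAdjoin.coe_jd',
    qExpand_coeff_mul, coeffEmb_coeff] at h1
  rw [coeff_jq_neg_one, map_one] at h1
  exact one_ne_zero h1

theorem uSer_coeff (N : ℕ) [NeZero N] : (uSer N).coeff (1 + (N : ℤ) * (-1)) = 1 :=
  ((S28.IsMono.DlL (Λ := Kbar)).mul ((S28.IsMono.DlLinv (Λ := Kbar)).qExpand N)).coeff_self.trans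
    (one_mul 1)

theorem uF_ne_algebraMap (hU : UMem) (N : ℕ) [NeZero N] (hN : 1 < N) (c : Kbar) :
    uF N ≠ algebraMap Kbar (FN N) c := by
  intro h
  have hN' : (1 : ℤ) < N := by exact_mod_cast hN
  have h1 := congrArg (fun z : FN N => (z : LaurentSeries Kbar).coeff (1 + (N : ℤ) * (-1))) h
  rw [coeff_algebraMap_of_ne N c (by omega), coe_uF hU, uSer_coeff] at h1
  exact one_ne_zero h1

/-! ### the corollaries -/

/-- the point `(j, j_N) = (j(τ), j(Nτ))`. -/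
theorem exists_isPt_of_tau (N : ℕ) [NeZero N] (τ : ℍ) (a : Kbar) (h : kleinJ τ = iota a) :
    ∃ (x : Place Kbar (FN N)) (b : Kbar), IsPt N x a b ∧ iota b = kleinJ (mulH N τ) := by
  obtain ⟨x, hx, H⟩ := exists_place_of_tau N τ a h
  obtain ⟨b, hb, hb'⟩ := H (FNAdjoin.jd N N dvd_rfl) (toConvK N ⟨_, jd_mem_A N N dvd_rfl⟩).2
  refine ⟨x, b, ⟨hx, hb'.resolve_left (jd_ne_algebraMap N b)⟩, ?_⟩
  rw [hb]
  exact PsiA_jd N N dvd_rfl τ

/-- the point `(j, j_N, u) = (j(τ), j(Nτ), Δ(τ)/Δ(Nτ))`: one place for the three functions. -/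
theorem exists_isPtU_of_tau (hU : UMem) (N : ℕ) [NeZero N] (hN : 1 < N) (τ : ℍ) (a : Kbar)
    (h : kleinJ τ = iota a) :
    ∃ (x : Place Kbar (FN N)) (b c : Kbar), IsPt N x a b ∧ IsPtU N x a c ∧
      iota b = kleinJ (mulH N τ) ∧ iota c = Δ τ / Δ (mulH N τ) := by
  obtain ⟨x, hx, H⟩ := exists_place_of_tau N τ a h
  obtain ⟨b, hb, hb'⟩ := H (FNAdjoin.jd N N dvd_rfl) (toConvK N ⟨_, jd_mem_A N N dvd_rfl⟩).2
  obtain ⟨c, hc, hc'⟩ := H (uF N) (by rw [coe_uF hU]; exact isConv_uSer N)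
  refine ⟨x, b, c, ⟨hx, hb'.resolve_left (jd_ne_algebraMap N b)⟩,
    ⟨hx, hc'.resolve_left (uF_ne_algebraMap hU N hN c)⟩, ?_, ?_⟩
  · rw [hb]
    exact PsiA_jd N N dvd_rfl τ
  · rw [hc, coe_uF hU, evalAt_uSer]

/-- The contract `M1.PlaceOut`, for `1 < N` (it is false for `N = 1`, where `uF 1 = 1`). -/
theorem placeOut_of (hU : UMem) (N : ℕ) [NeZero N] (hN : 1 < N) (τ : ℍ) (a : Kbar)
    (h : kleinJ τ = iota a) :
    ∃ (x : Place Kbar (FN N)) (c : Kbar),
      0 < x.ord (jF N - algebraMap Kbar (FN N) a) ∧ 0 < x.ord (uF N - algebraMap Kbar (FN N) c) ∧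
        iota c = Δ τ / Δ (mulH N τ) := by
  obtain ⟨x, -, c, -, h2, -, h4⟩ := exists_isPtU_of_tau hU N hN τ a h
  exact ⟨x, c, h2.ha, h2.hc, h4⟩

end Fermat.Agent.S15.M1.PL
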