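import Fermat.Agent.S24
import Fermat.Agent.GAL.Tors.Dict.AlgAn

/-!
# S15 / M1 / PL : a point `τ` of the upper half plane with algebraic `j(τ)` gives a place of `FN N`

`exists_place_of_tau` : ONE place `x` of `FN N` such that every `y ∈ FN N` whose `q`-expansion converges on the punctured unit disc
(all of `A N = Kbar[j(q^d)]`, modular units, ...) is regular at `x`, with value `y(τ)`.
-/

set_option autoImplicit false

noncomputable section

namespace Fermat.Agent.S15.M1.PL

open UpperHalfPlane AlgebraicCurve ModularCurve CongruenceSubgroup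
open Fermat.Agent.S24 Fermat.Agent.S24.PointExp Fermat.Agent.S24.FNAdjoin Fermat.Agent.S24.EmbedFN
  Fermat.Agent.S24.JLocal Fermat.Agent.S24.EmbedPoint Fermat.Agent.GAL.Tors.Dict
open scoped Manifold MatrixGroups

local notation "𝕢" => Function.Periodic.qParam

/-- the realisation of `A N`. -/
abbrev real (N : ℕ) [NeZero N] : Realisation Kbar (A N) (Gamma0 N) :=
  realisation N (stabiliser_Gamma0 N)

/-- the holomorphic function attached to a convergent series. -/
def holC (y : convK) : holo := ⟨PsiK y, mdifferentiable_PsiK y⟩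

theorem holC_mul (y z : convK) : holC (y * z) = holC y * holC z :=
  Subtype.ext (map_mul PsiK y z)

theorem coeff_zero_pointE (τ : ℍ) (G : holo) : (pointE τ G).coeff 0 = G.1 τ := by
  have h := pointE_coeff_nat τ G 0
  rw [Nat.cast_zero] at h
  rw [h, PowerSeries.coeff_zero_eq_constantCoeff_apply, expand_apply, constantCoeff_taylor0, pull,
    phi_zero, ofComplex_apply]

theorem order_pointE_nonneg (τ : ℍ) (G : holo) : 0 ≤ (pointE τ G).order := by
  by_cases h0 : pointE τ G = 0
  · rw [h0, HahnSeries.order_zero]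
  · by_contra hlt
    rw [not_le] at hlt
    exact h0 (HahnSeries.coeff_order_eq_zero.mp (pointE_coeff_neg τ G hlt))

theorem eq_zero_of_order_pos (τ : ℍ) (G : holo) (h : 0 < (pointE τ G).order) : G.1 τ = 0 := by
  rw [← coeff_zero_pointE]
  exact HahnSeries.coeff_eq_zero_of_lt_order h

theorem order_pos_of_eq_zero (τ : ℍ) (G : holo) (hG : G ≠ 0) (h : G.1 τ = 0) :
    0 < (pointE τ G).order := by
  have hne : pointE τ G ≠ 0 := fun h0 => hG (pointE_injective τ (by rw [h0, map_zero]))
  rcases (order_pointE_nonneg τ G).lt_or_eq with h1 | h1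
  · exact h1
  · exfalso
    apply hne
    apply HahnSeries.coeff_order_eq_zero.mp
    rw [← h1, coeff_zero_pointE, h]

/-- The expansion at `τ` of an element of `FN N` with convergent `q`-expansion. -/
theorem ptEmb_eq (N : ℕ) [NeZero N] (τ : ℍ) (y : FN N)
    (hy : (y : LaurentSeries Kbar) ∈ convK) :
    ptEmb (FN N) (real N) τ 1 y = pointE τ (holC ⟨y, hy⟩) := by
  obtain ⟨a, ha, s, hs, hs0, rfl⟩ := exists_div N y
  have hA : ∀ (x : FN N) (hx : x ∈ A N),
      ptEmb (FN N) (real N) τ 1 x = pointE τ (holC (toConvK N ⟨x, hx⟩)) := by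
    intro x hx
    exact AlgAn_ptEmb_one (F := FN N) (real N) τ ⟨x, hx⟩
  have h1 : ptEmb (FN N) (real N) τ 1 (a / s) * ptEmb (FN N) (real N) τ 1 s =
      ptEmb (FN N) (real N) τ 1 a := by
    rw [← map_mul, div_mul_cancel₀ _ hs0]
  have h2 : (⟨((a / s : FN N) : LaurentSeries Kbar), hy⟩ : convK) * toConvK N ⟨s, hs⟩ =
      toConvK N ⟨a, ha⟩ := by
    apply Subtype.ext
    show ((a / s : FN N) : LaurentSeries Kbar) * (s : LaurentSeries Kbar) = (a : LaurentSeries Kbar)
    have := congrArg (fun z : FN N => (z : LaurentSeries Kbar)) (div_mul_cancel₀ a hs0)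
    simpa using this
  have h3 : pointE τ (holC ⟨((a / s : FN N) : LaurentSeries Kbar), hy⟩) *
      pointE τ (holC (toConvK N ⟨s, hs⟩)) = pointE τ (holC (toConvK N ⟨a, ha⟩)) := by
    rw [← map_mul, ← holC_mul, h2]
  rw [hA a ha, hA s hs, ← h3] at h1
  have hne : pointE τ (holC (toConvK N ⟨s, hs⟩)) ≠ 0 := by
    rw [← hA s hs]
    exact (map_ne_zero _).mpr hs0
  exact mul_right_cancel₀ hne h1

theorem coe_jF_mem_convK (N : ℕ) : ((jF N : FN N) : LaurentSeries Kbar) ∈ convK :=
  (toConvK N ⟨jF N, jF_mem_A N⟩).2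

/-- **Place from `τ`.** -/
theorem exists_place_of_tau (N : ℕ) [NeZero N] (τ : ℍ) (a : Kbar) (h : kleinJ τ = iota a) :
    ∃ x : Place Kbar (FN N), 0 < x.ord (jF N - algebraMap Kbar (FN N) a) ∧
      ∀ y : FN N, IsConv (coeffMap iota (y : LaurentSeries Kbar)) →
        ∃ c : Kbar, iota c = evalAt (𝕢 1 τ) (coeffMap iota (y : LaurentSeries Kbar)) ∧
          (y = algebraMap Kbar (FN N) c ∨ 0 < x.ord (y - algebraMap Kbar (FN N) c)) := by
  have hj := transcendental_jF N
  have := finiteDimensional_jF N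
  set φ := ptEmb (FN N) (real N) τ 1 with hφ
  have hsubmem : ∀ (y : FN N) (c : Kbar), (y : LaurentSeries Kbar) ∈ convK →
      ((y - algebraMap Kbar (FN N) c : FN N) : LaurentSeries Kbar) ∈ convK := by
    intro y c hy
    exact convK.sub_mem hy (convK.algebraMap_mem c)
  have hval : ∀ (y : FN N) (c : Kbar) (hy : (y : LaurentSeries Kbar) ∈ convK),
      (holC ⟨_, hsubmem y c hy⟩).1 τ = PsiK ⟨y, hy⟩ τ - iota c := by
    intro y c hy
    have e : (⟨_, hsubmem y c hy⟩ : convK) = ⟨y, hy⟩ - algebraMap Kbar convK c := rfl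
    show PsiK _ τ = _
    rw [e, map_sub, Pi.sub_apply, PsiK_algebraMap]
  have hne : jF N - algebraMap Kbar (FN N) a ≠ 0 := by
    intro h0
    rw [sub_eq_zero] at h0
    rw [h0] at hj
    exact hj (isAlgebraic_algebraMap a)
  have hJ : PsiK ⟨_, coe_jF_mem_convK N⟩ τ = kleinJ τ := PsiA_jF N τ
  have h1 : 0 < ordOf φ (jF N - algebraMap Kbar (FN N) a) := by
    unfold ordOf
    rw [hφ, ptEmb_eq N τ _ (hsubmem _ a (coe_jF_mem_convK N))]
    refine order_pos_of_eq_zero τ _ ?_ ?_
    · intro h0
      apply hne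
      have h2 : ptEmb (FN N) (real N) τ 1 (jF N - algebraMap Kbar (FN N) a) = 0 := by
        rw [ptEmb_eq N τ _ (hsubmem _ a (coe_jF_mem_convK N)), h0, map_zero]
      exact (map_eq_zero _).mp h2
    · rw [hval _ _ (coe_jF_mem_convK N), hJ, h, sub_self]
  obtain ⟨x, M, hM, hx, hord⟩ := exists_place_of_hom (k := Kbar) φ _ h1.ne'
  refine ⟨x, ?_, ?_⟩
  · rw [hord _ hne] at h1
    exact (mul_pos_iff_of_pos_left hM).mp h1
  · intro y hy
    have hy' : (y : LaurentSeries Kbar) ∈ convK := hy
    have hmem : y ∈ x.toValuationSubring := by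
      rw [hx, mem_ringOf]
      unfold ordOf
      rw [hφ, ptEmb_eq N τ y hy']
      exact order_pointE_nonneg τ _
    obtain ⟨c, hc⟩ := exists_const_of_mem (jF N) hj x y hmem
    refine ⟨c, ?_, hc⟩
    show iota c = PsiK ⟨y, hy'⟩ τ
    rcases hc with hc | hc
    · have e : (⟨y, hy'⟩ : convK) = algebraMap Kbar convK c := by
        apply Subtype.ext
        show (y : LaurentSeries Kbar) = _
        rw [hc]
        rfl
      rw [e, PsiK_algebraMap]
    · have hne' : y - algebraMap Kbar (FN N) c ≠ 0 := by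
        intro h0
        rw [h0] at hc
        simp at hc
      have h2 : 0 < ordOf φ (y - algebraMap Kbar (FN N) c) := by
        rw [hord _ hne']
        exact mul_pos hM hc
      unfold ordOf at h2
      rw [hφ, ptEmb_eq N τ _ (hsubmem y c hy')] at h2
      have h3 := eq_zero_of_order_pos τ _ h2
      rw [hval] at h3
      exact (sub_eq_zero.mp h3).symm

end Fermat.Agent.S15.M1.PL
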